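/-
Programme II (S40), bridge leaf 'Approx' (helper6), part 1: averaging over a finite family of
automorphisms.  Mathlib only.

`j : K →+* Ω` a ring homomorphism into an ultrametric normed field, `τ i : K →+* K` and
`T i : Ω →+* Ω` (`i : ι` finite) with `T i` isometric and `T i ∘ j = j ∘ τ i`.  If `ω : Ω` is fixed by
all `T i`, then the average `u = (card ι)⁻¹ ∑ i, τ i y` approximates `ω` as well as `y` does, up to the
factor `‖card ι‖⁻¹`; and `u` is fixed by every `s` which permutes the family `(τ i y)`.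
-/
import Mathlib

set_option autoImplicit false

noncomputable section

namespace Fermat.Agent.FF4.Approx

variable {K Ω : Type*} [Field K] [NormedField Ω] [IsUltrametricDist Ω] (j : K →+* Ω)
  {ι : Type*} [Fintype ι] (τ : ι → K →+* K) (T : ι → Ω →+* Ω)

/-- The average of `y` over the family `τ`. -/
def average (y : K) : K := (Fintype.card ι : K)⁻¹ * ∑ i, τ i y

theorem average_def (y : K) : average τ y = (Fintype.card ι : K)⁻¹ * ∑ i, τ i y := rfl

/-- The average is fixed by every ring homomorphism which permutes the family `(τ i y)`. -/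
theorem map_average_eq (s : K →+* K) (π : ι ≃ ι) {y : K} (h : ∀ i, s (τ i y) = τ (π i) y) :
    s (average τ y) = average τ y := by
  rw [average_def, map_mul, map_inv₀, map_natCast, map_sum]
  congr 1
  calc ∑ i, s (τ i y) = ∑ i, τ (π i) y := Finset.sum_congr rfl fun i _ => h i
    _ = ∑ i, τ i y := Equiv.sum_comp π fun i => τ i y

theorem average_mem (K' : Subfield K) (hτ : ∀ i, ∀ y ∈ K', τ i y ∈ K') {y : K} (hy : y ∈ K') :
    average τ y ∈ K' := by
  rw [average_def]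
  refine K'.mul_mem (K'.inv_mem (natCast_mem K' _)) ?_
  exact K'.sum_mem fun i _ => hτ i y hy

variable {j τ T}

/-- Ultrametric bound for a finite sum. -/
theorem norm_sum_le_of_forall_le {a : ι → Ω} {C : ℝ} (hC : 0 ≤ C) (h : ∀ i, ‖a i‖ ≤ C) :
    ‖∑ i, a i‖ ≤ C :=
  IsUltrametricDist.norm_sum_le_of_forall_le_of_nonneg hC fun i _ => h i

/-- **Averaging**: the average approximates a fixed point `ω` of the `T i` as well as `y` does, up to
the factor `‖card ι‖⁻¹`. -/
theorem norm_sub_average_le (hT : ∀ i a, ‖T i a‖ = ‖a‖) (hTj : ∀ i x, T i (j x) = j (τ i x))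
    (hn : (Fintype.card ι : Ω) ≠ 0) {ω : Ω} (hω : ∀ i, T i ω = ω) (y : K) :
    ‖ω - j (average τ y)‖ ≤ ‖(Fintype.card ι : Ω)‖⁻¹ * ‖ω - j y‖ := by
  have h1 : ω - j (average τ y) = (Fintype.card ι : Ω)⁻¹ * ∑ i, T i (ω - j y) := by
    have hsum : ∑ i, T i (ω - j y) = (Fintype.card ι : Ω) * ω - ∑ i, j (τ i y) := by
      simp_rw [map_sub, hω, hTj]
      rw [Finset.sum_sub_distrib, Finset.sum_const, Finset.card_univ, nsmul_eq_mul]
    rw [hsum, average_def, map_mul, map_inv₀, map_natCast, map_sum, mul_sub, ← mul_assoc,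
      inv_mul_cancel₀ hn, one_mul]
  rw [h1, norm_mul, norm_inv]
  refine mul_le_mul_of_nonneg_left ?_ (inv_nonneg.mpr (norm_nonneg _))
  exact norm_sum_le_of_forall_le (norm_nonneg _) fun i => (hT i _).le

/-- **A fixed approximation**: if `ω` (of norm one, fixed by the `T i`) is a limit of elements of
`j K'`, there is `u ∈ K'` fixed by every `s ∈ S` (the `s` permuting the family on `K'`) with
`‖j u‖ = 1` and `‖ω / j u - 1‖ ≤ r`. -/
theorem exists_fixed_approx [Nonempty ι] (K' : Subfield K) (hτ : ∀ i, ∀ y ∈ K', τ i y ∈ K')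
    (S : Set (K →+* K))
    (hperm : ∀ s ∈ S, ∃ π : ι ≃ ι, ∀ y ∈ K', ∀ i, s (τ i y) = τ (π i) y)
    (hT : ∀ i a, ‖T i a‖ = ‖a‖) (hTj : ∀ i x, T i (j x) = j (τ i x))
    (hn : (Fintype.card ι : Ω) ≠ 0) {ω : Ω} (hω : ∀ i, T i ω = ω)
    (hdense : ω ∈ closure (j '' (K' : Set K))) (hω1 : ‖ω‖ = 1) {r : ℝ} (hr0 : 0 < r)
    (hr1 : r < 1) :
    ∃ u ∈ K', (∀ s ∈ S, s u = u) ∧ ‖j u‖ = 1 ∧ ‖ω - j u‖ ≤ r ∧ ‖ω * (j u)⁻¹ - 1‖ ≤ r := by
  have hnpos : 0 < ‖(Fintype.card ι : Ω)‖ := norm_pos_iff.mpr hn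
  obtain ⟨_, ⟨y, hy, rfl⟩, hyd⟩ := Metric.mem_closure_iff.mp hdense
    (r * ‖(Fintype.card ι : Ω)‖) (mul_pos hr0 hnpos)
  refine ⟨average τ y, average_mem τ K' hτ hy, fun s hs => ?_, ?_⟩
  · obtain ⟨π, hπ⟩ := hperm s hs
    exact map_average_eq τ s π fun i => hπ y hy i
  have hle : ‖ω - j (average τ y)‖ ≤ r := by
    refine (norm_sub_average_le hT hTj hn hω y).trans ?_
    rw [dist_eq_norm] at hyd
    calc ‖(Fintype.card ι : Ω)‖⁻¹ * ‖ω - j y‖
        ≤ ‖(Fintype.card ι : Ω)‖⁻¹ * (r * ‖(Fintype.card ι : Ω)‖) :=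
          mul_le_mul_of_nonneg_left hyd.le (inv_nonneg.mpr hnpos.le)
      _ = r := by field_simp
  have hlt : ‖ω - j (average τ y)‖ < ‖ω‖ := by rw [hω1]; exact hle.trans_lt hr1
  have hnorm : ‖j (average τ y)‖ = 1 := by
    have h2 : j (average τ y) = ω + -(ω - j (average τ y)) := by ring
    have hne : ‖ω‖ ≠ ‖-(ω - j (average τ y))‖ := by rw [norm_neg]; exact hlt.ne'
    rw [h2, IsUltrametricDist.norm_add_eq_max_of_norm_ne_norm hne, norm_neg,
      max_eq_left hlt.le, hω1]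
  refine ⟨hnorm, hle, ?_⟩
  have hne : j (average τ y) ≠ 0 := by
    rw [← norm_pos_iff, hnorm]; exact one_pos
  have h3 : ω * (j (average τ y))⁻¹ - 1 = (ω - j (average τ y)) * (j (average τ y))⁻¹ := by
    field_simp
  rw [h3, norm_mul, norm_inv, hnorm, inv_one, mul_one]
  exact hle

end Fermat.Agent.FF4.Approx
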