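/-
Programme II (S40), bridge leaf 'Approx' (helper6), part 3: descent of `n`-th roots along an embedding
of an algebraically closed field.  Mathlib only.

`j : K →+* Ω` a ring homomorphism from an algebraically closed field `K` into a field `Ω`, `n ≠ 0` in
`K`.  Then every `b : Ω` with `b ^ n ∈ j K` lies in `j K` (the `n`-th roots of unity of `Ω` are in
`j K`).
-/
import Mathlib

set_option autoImplicit false

namespace Fermat.Agent.FF4.Approx

variable {K Ω : Type*} [Field K] [IsAlgClosed K] [Field Ω] (j : K →+* Ω)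

/-- The `n`-th roots of unity of `Ω` come from `K`. -/
theorem exists_map_eq_of_pow_eq_one {n : ℕ} (hn : (n : K) ≠ 0) {η : Ω} (hη : η ^ n = 1) :
    ∃ ζ : K, ζ ^ n = 1 ∧ j ζ = η := by
  have hn0 : n ≠ 0 := by rintro rfl; exact hn Nat.cast_zero
  have : NeZero (n : K) := ⟨hn⟩
  have : NeZero n := ⟨hn0⟩
  obtain ⟨ζ, hζ⟩ := HasEnoughRootsOfUnity.exists_primitiveRoot K n
  have hjζ : IsPrimitiveRoot (j ζ) n := hζ.map_of_injective j.injective
  obtain ⟨i, -, hi⟩ := hjζ.eq_pow_of_pow_eq_one hη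
  refine ⟨ζ ^ i, ?_, ?_⟩
  · rw [← pow_mul, mul_comm, pow_mul, hζ.pow_eq_one, one_pow]
  · rw [map_pow, hi]

/-- **Descent of `n`-th roots.** -/
theorem exists_map_eq_of_pow_eq {n : ℕ} (hn : (n : K) ≠ 0) {b : Ω} {a : K} (h : b ^ n = j a) :
    ∃ b' : K, j b' = b ∧ b' ^ n = a := by
  have hn0 : n ≠ 0 := by rintro rfl; exact hn Nat.cast_zero
  obtain ⟨z, hz⟩ := IsAlgClosed.exists_pow_nat_eq a (Nat.pos_of_ne_zero hn0)
  rcases eq_or_ne a 0 with ha | ha
  · refine ⟨0, ?_, ?_⟩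
    · rw [ha, map_zero] at h
      rw [map_zero]
      exact (pow_eq_zero_iff hn0).mp h |>.symm
    · rw [ha, zero_pow hn0]
  have hz0 : z ≠ 0 := by
    rintro rfl
    rw [zero_pow hn0] at hz
    exact ha hz.symm
  have hjz0 : j z ≠ 0 := (map_ne_zero j).mpr hz0
  have hη : (b * (j z)⁻¹) ^ n = 1 := by
    rw [mul_pow, inv_pow, h, ← hz, map_pow]
    exact mul_inv_cancel₀ (pow_ne_zero n hjz0)
  obtain ⟨ζ, hζ1, hζ⟩ := exists_map_eq_of_pow_eq_one j hn hη
  refine ⟨ζ * z, ?_, ?_⟩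
  · rw [map_mul, hζ, mul_assoc, inv_mul_cancel₀ hjz0, mul_one]
  · rw [mul_pow, hζ1, one_mul, hz]

end Fermat.Agent.FF4.Approx
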