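/-
Programme II (S40), bridge leaf 'Approx' (helper6), part 2: the canonical `n`-th root of an element
close to `1` in a complete ultrametric normed field.  Mathlib + FF3/NRoot (Newton/chord iteration).

* `exists_root_near_one (hn : (n : Ω) ≠ 0) (hδ : ‖δ‖ < ‖(n : Ω)‖ ^ 2)` :
  `∃ ε, ε ^ n = 1 + δ ∧ ‖ε - 1‖ * ‖(n : Ω)‖ ≤ ‖δ‖` (in particular `‖ε - 1‖ < ‖(n : Ω)‖`);
* `root_unique` : `n`-th roots in the open ball of radius `‖(n : Ω)‖` around `1` are unique;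
* `existsUnique_root_near_one`; `nthRoot hn hδ` (the canonical root) with `nthRoot_pow`,
  `norm_nthRoot_sub_one_lt`, `norm_nthRoot_sub_one_mul_le`, `eq_nthRoot`;
* `map_nthRoot` : an isometric ring endomorphism fixing `δ` fixes the canonical root.
-/
import Mathlib
import Fermat.Agent.FF3.NRoot.Real

set_option autoImplicit false

noncomputable section

namespace Fermat.Agent.FF4.Approx

open Fermat.Agent.FF3

variable {Ω : Type*} [NormedField Ω] [IsUltrametricDist Ω]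

/-- The norm of a normed field as a family (indexed by `Unit`) of multiplicative ring norms. -/
def normFam (Ω : Type*) [NormedField Ω] : Unit → MulRingNorm Ω := fun _ =>
  NormedField.toMulRingNorm Ω

omit [IsUltrametricDist Ω] in
theorem normFam_apply (x : Ω) : normFam Ω () x = ‖x‖ := rfl

theorem isNonarchimedean_normFam (i : Unit) : IsNonarchimedean (normFam Ω i) :=
  IsUltrametricDist.isNonarchimedean_norm

omit [IsUltrametricDist Ω] in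
theorem realSeqComplete_normFam [CompleteSpace Ω] :
    NRoot.RealSeqComplete fun (i : Unit) (x : Ω) => normFam Ω i x :=
  NRoot.realSeqComplete_of_completeSpace (fun (_ : Unit) (x : Ω) => ‖x‖) (fun _ _ => le_rfl)
    fun _ => ⟨(), le_rfl⟩

variable {n : ℕ}

/-- **Existence** of an `n`-th root of `1 + δ` close to `1`. -/
theorem exists_root_near_one [CompleteSpace Ω] (hn : (n : Ω) ≠ 0) {δ : Ω}
    (hδ : ‖δ‖ < ‖(n : Ω)‖ ^ 2) :
    ∃ ε : Ω, ε ^ n = 1 + δ ∧ ‖ε - 1‖ * ‖(n : Ω)‖ ≤ ‖δ‖ := by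
  obtain ⟨y, -, hy2, hy3⟩ := NRoot.exists_root_near_one_mul (normFam Ω) isNonarchimedean_normFam
    realSeqComplete_normFam (n := n) (ninv := (n : Ω)⁻¹) (mul_inv_cancel₀ hn) (g := 1 + δ)
    (fun i => by
      show ‖1 + δ - 1‖ < ‖(n : Ω)‖ ^ 2
      rwa [add_sub_cancel_left])
  refine ⟨y, ?_, ?_⟩
  · have := hy2 ()
    exact sub_eq_zero.mp (norm_eq_zero.mp this)
  · have := hy3 ()
    have h2 : ‖y - 1‖ * ‖(n : Ω)‖ ≤ ‖1 + δ - 1‖ := this
    rwa [add_sub_cancel_left] at h2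

/-- **Uniqueness** of `n`-th roots in the open ball of radius `‖n‖` around `1`. -/
theorem root_unique (hn : (n : Ω) ≠ 0) {y y' : Ω} (hpow : y ^ n = y' ^ n)
    (hy : ‖y - 1‖ < ‖(n : Ω)‖) (hy' : ‖y' - 1‖ < ‖(n : Ω)‖) : y = y' :=
  NRoot.root_unique_mul (normFam Ω) isNonarchimedean_normFam (n := n) (ninv := (n : Ω)⁻¹)
    (mul_inv_cancel₀ hn) (fun _ hx => norm_eq_zero.mp (hx ())) hpow (fun _ => hy) (fun _ => hy')

omit [IsUltrametricDist Ω] in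
theorem norm_lt_of_mul_le (hn : (n : Ω) ≠ 0) {δ ε : Ω} (hδ : ‖δ‖ < ‖(n : Ω)‖ ^ 2)
    (h : ‖ε - 1‖ * ‖(n : Ω)‖ ≤ ‖δ‖) : ‖ε - 1‖ < ‖(n : Ω)‖ := by
  have hpos : 0 < ‖(n : Ω)‖ := norm_pos_iff.mpr hn
  have h2 : ‖ε - 1‖ * ‖(n : Ω)‖ < ‖(n : Ω)‖ * ‖(n : Ω)‖ := by
    rw [← sq]; exact h.trans_lt hδ
  exact lt_of_mul_lt_mul_right h2 hpos.le

theorem existsUnique_root_near_one [CompleteSpace Ω] (hn : (n : Ω) ≠ 0) {δ : Ω}
    (hδ : ‖δ‖ < ‖(n : Ω)‖ ^ 2) : ∃! ε : Ω, ε ^ n = 1 + δ ∧ ‖ε - 1‖ < ‖(n : Ω)‖ := by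
  obtain ⟨ε, h1, h2⟩ := exists_root_near_one hn hδ
  refine ⟨ε, ⟨h1, norm_lt_of_mul_le hn hδ h2⟩, fun y hy => ?_⟩
  exact root_unique hn (hy.1.trans h1.symm) hy.2 (norm_lt_of_mul_le hn hδ h2)

/-- **The canonical `n`-th root** of `1 + δ`, `‖δ‖ < ‖n‖²`. -/
def nthRoot [CompleteSpace Ω] (hn : (n : Ω) ≠ 0) {δ : Ω} (hδ : ‖δ‖ < ‖(n : Ω)‖ ^ 2) : Ω :=
  Classical.choose (exists_root_near_one hn hδ)

section Canonical

variable [CompleteSpace Ω] (hn : (n : Ω) ≠ 0) {δ : Ω} (hδ : ‖δ‖ < ‖(n : Ω)‖ ^ 2)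

theorem nthRoot_pow : nthRoot hn hδ ^ n = 1 + δ :=
  (Classical.choose_spec (exists_root_near_one hn hδ)).1

theorem norm_nthRoot_sub_one_mul_le : ‖nthRoot hn hδ - 1‖ * ‖(n : Ω)‖ ≤ ‖δ‖ :=
  (Classical.choose_spec (exists_root_near_one hn hδ)).2

theorem norm_nthRoot_sub_one_lt : ‖nthRoot hn hδ - 1‖ < ‖(n : Ω)‖ :=
  norm_lt_of_mul_le hn hδ (norm_nthRoot_sub_one_mul_le hn hδ)

theorem norm_nthRoot : ‖nthRoot hn hδ‖ = 1 := by
  have hlt : ‖nthRoot hn hδ - 1‖ < 1 := by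
    refine (norm_nthRoot_sub_one_lt hn hδ).trans_le ?_
    exact IsUltrametricDist.norm_natCast_le_one Ω n
  have h2 : nthRoot hn hδ = 1 + (nthRoot hn hδ - 1) := by ring
  have hne : ‖(1 : Ω)‖ ≠ ‖nthRoot hn hδ - 1‖ := by rw [norm_one]; exact hlt.ne'
  rw [h2, IsUltrametricDist.norm_add_eq_max_of_norm_ne_norm hne, norm_one, max_eq_left hlt.le]

theorem nthRoot_ne_zero : nthRoot hn hδ ≠ 0 := by
  rw [← norm_pos_iff, norm_nthRoot]; exact one_pos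

/-- Characterisation of the canonical root. -/
theorem eq_nthRoot {y : Ω} (hpow : y ^ n = 1 + δ) (hy : ‖y - 1‖ < ‖(n : Ω)‖) :
    y = nthRoot hn hδ :=
  root_unique hn (hpow.trans (nthRoot_pow hn hδ).symm) hy (norm_nthRoot_sub_one_lt hn hδ)

/-- **Canonicity**: an isometric ring endomorphism fixing `δ` fixes the canonical root. -/
theorem map_nthRoot (σ : Ω →+* Ω) (hσ : ∀ a, ‖σ a‖ = ‖a‖) (hσδ : σ δ = δ) :
    σ (nthRoot hn hδ) = nthRoot hn hδ := by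
  refine eq_nthRoot hn hδ ?_ ?_
  · rw [← map_pow, nthRoot_pow, map_add, map_one, hσδ]
  · have : σ (nthRoot hn hδ) - 1 = σ (nthRoot hn hδ - 1) := by rw [map_sub, map_one]
    rw [this, hσ]
    exact norm_nthRoot_sub_one_lt hn hδ

end Canonical

end Fermat.Agent.FF4.Approx
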