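/-
Programme II (S40), bridge leaf 'Approx' (helper6), part 4: assembly (helper21's msg 26409 (r3)).

`K` algebraically closed, `j : K →+* Ω` into a complete ultrametric normed field, `p ≠ 0` in `K`.
Given `j c = ω * β ^ p` with `‖ω‖ = 1`, `ω` a limit of elements of `j K'` (`K'` a subfield on which the
finite family `τ i` acts, `T i` the isometric extensions, `T i ω = ω`): there are `u ∈ K'` and
`β'' : K` with `β'' ^ p * u = c`, `‖j u‖ = 1`, `u` fixed by every `s ∈ S` (the `s` permuting the family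
on `K'`), and `β''` fixed by every `s ∈ S` whose isometric extension `σ` fixes `ω` and `β`.
-/
import Mathlib
import Fermat.Agent.FF4.Approx.Average
import Fermat.Agent.FF4.Approx.Root
import Fermat.Agent.FF4.Approx.Descend

set_option autoImplicit false

namespace Fermat.Agent.FF4.Approx

variable {K Ω : Type*} [Field K] [IsAlgClosed K] [NormedField Ω] [IsUltrametricDist Ω]
  [CompleteSpace Ω] {j : K →+* Ω} {ι : Type*} [Fintype ι] [Nonempty ι] {τ : ι → K →+* K}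
  {T : ι → Ω →+* Ω}

/-- **The bridge `Approx`.** -/
theorem exists_root_descent (K' : Subfield K) (hτ : ∀ i, ∀ y ∈ K', τ i y ∈ K')
    (S : Set (K →+* K))
    (hperm : ∀ s ∈ S, ∃ π : ι ≃ ι, ∀ y ∈ K', ∀ i, s (τ i y) = τ (π i) y)
    (hT : ∀ i a, ‖T i a‖ = ‖a‖) (hTj : ∀ i x, T i (j x) = j (τ i x))
    (hn : (Fintype.card ι : Ω) ≠ 0) {p : ℕ} (hp : (p : K) ≠ 0) {ω β : Ω} {c : K}
    (hω : ∀ i, T i ω = ω) (hdense : ω ∈ closure (j '' (K' : Set K))) (hω1 : ‖ω‖ = 1)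
    (hc : j c = ω * β ^ p) :
    ∃ u ∈ K', ∃ β'' : K, (∀ s ∈ S, s u = u) ∧ ‖j u‖ = 1 ∧ β'' ^ p * u = c ∧
      (∃ ε : Ω, ε ^ p = ω * (j u)⁻¹ ∧ ‖ε - 1‖ < ‖(p : Ω)‖ ∧ j β'' = β * ε) ∧
      ∀ s ∈ S, ∀ σ : Ω →+* Ω, (∀ a, ‖σ a‖ = ‖a‖) → (∀ x, σ (j x) = j (s x)) → σ ω = ω →
        σ β = β → s β'' = β'' := by
  have hpΩ : (p : Ω) ≠ 0 := by
    have : (p : Ω) = j (p : K) := (map_natCast j p).symm
    rw [this]
    exact (map_ne_zero j).mpr hp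
  have hppos : 0 < ‖(p : Ω)‖ := norm_pos_iff.mpr hpΩ
  have hple : ‖(p : Ω)‖ ≤ 1 := IsUltrametricDist.norm_natCast_le_one Ω p
  set r : ℝ := ‖(p : Ω)‖ ^ 2 / 2 with hr
  have hr0 : 0 < r := by positivity
  have hrlt : r < ‖(p : Ω)‖ ^ 2 := by rw [hr]; linarith [pow_pos hppos 2]
  have hr1 : r < 1 := hrlt.trans_le (pow_le_one₀ hppos.le hple)
  obtain ⟨u, huK', hus, hu1, -, hu2⟩ :=
    exists_fixed_approx K' hτ S hperm hT hTj hn hω hdense hω1 hr0 hr1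
  have hju0 : j u ≠ 0 := by rw [← norm_pos_iff, hu1]; exact one_pos
  have hu0 : u ≠ 0 := fun h => hju0 (by rw [h, map_zero])
  set δ : Ω := ω * (j u)⁻¹ - 1 with hδdef
  have hδ : ‖δ‖ < ‖(p : Ω)‖ ^ 2 := hu2.trans_lt hrlt
  set ε₁ : Ω := nthRoot hpΩ hδ with hε₁
  have hε₁pow : ε₁ ^ p = ω * (j u)⁻¹ := by
    rw [hε₁, nthRoot_pow, hδdef]; ring
  -- the corrected root
  have hpow : (β * ε₁) ^ p = j (c * u⁻¹) := by
    rw [mul_pow, hε₁pow, map_mul, map_inv₀, hc]; ring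
  obtain ⟨β'', hβ''j, hβ''pow⟩ := exists_map_eq_of_pow_eq j hp hpow
  refine ⟨u, huK', β'', hus, hu1, ?_, ⟨ε₁, hε₁pow, norm_nthRoot_sub_one_lt hpΩ hδ, hβ''j⟩, ?_⟩
  · rw [hβ''pow, mul_assoc, inv_mul_cancel₀ hu0, mul_one]
  · intro s hs σ hσ hσj hσω hσβ
    have hσδ : σ δ = δ := by
      rw [hδdef, map_sub, map_mul, map_inv₀, map_one, hσω, hσj, hus s hs]
    have hσε : σ ε₁ = ε₁ := map_nthRoot hpΩ hδ σ hσ hσδ
    apply j.injective
    rw [← hσj, hβ''j, map_mul, hσβ, hσε]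

end Fermat.Agent.FF4.Approx
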