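/-
Programme II (S44), bridge leaf 'Approx' (helper6), part 6: glue between the LITERAL conclusion of
helper11's `k1_gamma_thick_one` and `exists_root_of_geo_decomp`.

In `k1_gamma` the completed constants are a normed field `K` (at the modular plug: the subfield
`K₁ = constK₁ L i j = (K'.map ι).topologicalClosure` of `Ω = OmegaB B hB`), the group `Γ` acts on
the component fields `E_v` through `act_v : Γ →* RingAut E_v` of FINITE range, and on `K` by
`σ : Γ → K →+* K`, with `ι_v (σ t c) = act_v t (ι_v c)`.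

* `finite_range_of_forall_eq` : a map that factors through a map of finite range has finite range;
* `finite_range_sigma_of_equivariant` : `Γ` acts on `K` through a finite image;
* `finite_range_res_of_sigma` : hence `H` acts on `K' ⊆ Kb` through a finite image (`hfin`);
* `exists_root_of_geo_subfield` : (GEO) with `υ β q : K₁` (subfield of `Ω`) and `σ t` the
  restriction of `sigmaOmega`, in the literal shape of the conclusion of `k1_gamma_thick_one`.
-/
import Mathlib
import Fermat.Agent.FF4.Approx.Instance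

set_option autoImplicit false

namespace Fermat.Agent.FF4.Approx

open Fermat.Agent.FF3.AbsB

/-- A map `g` that is constant on the fibres of a map `f` of finite range has finite range. -/
theorem finite_range_of_forall_eq {Γ X Y : Type*} (f : Γ → X) (g : Γ → Y)
    (hf : (Set.range f).Finite) (h : ∀ t t', f t = f t' → g t = g t') : (Set.range g).Finite := by
  classical
  rcases isEmpty_or_nonempty Y with hY | hY
  · exact Set.toFinite _
  · have hfac : Function.FactorsThrough g f := fun t t' htt' => h t t' htt'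
    have hg : g = Function.extend f g (fun _ => Classical.arbitrary Y) ∘ f :=
      (Function.FactorsThrough.extend_comp (fun _ => Classical.arbitrary Y) hfac).symm
    rw [hg, Set.range_comp]
    exact hf.image _

/-- In the situation of `k1_gamma`: `Γ` acts on the constants through a finite image. -/
theorem finite_range_sigma_of_equivariant {Γ E K : Type*} [Group Γ] [Field E] [Field K]
    (act : Γ →* RingAut E) (hfin : (Set.range act).Finite) (ι₀ : K →+* E) (σ : Γ → K →+* K)
    (hι : ∀ (t : Γ) (c : K), ι₀ (σ t c) = act t (ι₀ c)) :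
    (Set.range fun t : Γ => (σ t : K → K)).Finite := by
  refine finite_range_of_forall_eq (fun t => act t) _ hfin fun t t' htt' => ?_
  funext c
  apply ι₀.injective
  rw [hι, hι]
  exact congrArg (fun a : RingAut E => a (ι₀ c)) htt'

local notation "Kb" => AlgebraicClosure ℚ

variable (B : ValuationSubring Kb) {q : ℕ} [hq : Fact q.Prime] (hB : B.LiesOverPrime q)

/-- From a finite image on a subfield `K₁ ⊇ ι K'` of `Ω` to the finite image on `K'`. -/
theorem finite_range_res_of_sigma (H : Subgroup (Kb ≃ₐ[ℚ] Kb))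
    (hH : H ≤ B.decompositionSubgroup ℚ) (K' : Subfield Kb)
    (K₁ : Subfield (OmegaB B hB)) (hK₁ : ∀ y ∈ K', (datumKb B hB).ι y ∈ K₁)
    (σ : H → K₁ →+* K₁)
    (hσ : ∀ (t : H) (x : K₁), ((σ t x : K₁) : OmegaB B hB) =
      sigmaOmega B hB (t : Kb ≃ₐ[ℚ] Kb) (hH t.2) (x : OmegaB B hB))
    (hfin : (Set.range fun t : H => (σ t : K₁ → K₁)).Finite) :
    (Set.range fun s : H => fun y : K' => (s : Kb ≃ₐ[ℚ] Kb) (y : Kb)).Finite := by
  refine finite_range_of_forall_eq (fun t : H => (σ t : K₁ → K₁)) _ hfin fun t t' htt' => ?_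
  funext y
  apply (datumKb B hB).ι.injective
  rw [← sigmaOmega_ι (hH t.2), ← sigmaOmega_ι (hH t'.2)]
  have h1 := hσ t ⟨(datumKb B hB).ι (y : Kb), hK₁ _ y.2⟩
  have h2 := hσ t' ⟨(datumKb B hB).ι (y : Kb), hK₁ _ y.2⟩
  rw [← h1, ← h2]
  exact congrArg (fun f : K₁ → K₁ => ((f ⟨(datumKb B hB).ι (y : Kb), hK₁ _ y.2⟩ : K₁) :
    OmegaB B hB)) htt'

/-- **(GEO) in the literal shape of the conclusion of `k1_gamma_thick_one`** (`K := K₁`, the
completed constants inside `Ω`, `σ t` the restriction of `sigmaOmega`; `qΩ : K₁` the image of the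
constant `c : Kb`): the hypotheses of `K3BetaOut` on `(β'', u, n)`. -/
theorem exists_root_of_geo_subfield (H : Subgroup (Kb ≃ₐ[ℚ] Kb))
    (hH : H ≤ B.decompositionSubgroup ℚ) (K' : Subfield Kb)
    (hstab : ∀ s ∈ H, ∀ y ∈ K', s y ∈ K')
    (K₁ : Subfield (OmegaB B hB)) (hK₁ : K₁ = (K'.map (datumKb B hB).ι).topologicalClosure)
    (σ : H → K₁ →+* K₁)
    (hσ : ∀ (t : H) (x : K₁), ((σ t x : K₁) : OmegaB B hB) =
      sigmaOmega B hB (t : Kb ≃ₐ[ℚ] Kb) (hH t.2) (x : OmegaB B hB))
    (hfin : (Set.range fun t : H => (σ t : K₁ → K₁)).Finite)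
    {p : ℕ} (hp : p ≠ 0) {c : Kb} {qΩ : K₁} (hqΩ : (qΩ : OmegaB B hB) = (datumKb B hB).ι c)
    (n : ℤ) {υ β : K₁} (hυ : ∀ t : H, σ t υ = υ) (hυ1 : ‖(υ : OmegaB B hB)‖ = 1)
    (hid : qΩ ^ n * υ = β ^ p) :
    ∃ β'' u : Kb, u ∈ K' ∧ β'' ^ p = c ^ n * u ∧ B.valuation u = 1 ∧ (∀ t ∈ H, t u = u) ∧
      ∀ t : H, σ t β = β → (t : Kb ≃ₐ[ℚ] Kb) β'' = β'' := by
  have hK₁le : ∀ y ∈ K', (datumKb B hB).ι y ∈ K₁ := fun y hy => by
    rw [hK₁]
    exact Subfield.le_topologicalClosure _ (Subfield.mem_map.mpr ⟨y, hy, rfl⟩)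
  have hfin' := finite_range_res_of_sigma B hB H hH K' K₁ hK₁le σ hσ hfin
  obtain ⟨β'', u, huK', hpow, hval, hfixu, hfixβ⟩ :=
    exists_root_of_geo_decomp B hB H hH K' hstab hfin' hp (c := c) n
      (υ := (υ : OmegaB B hB)) (β := (β : OmegaB B hB))
      (fun s hs => by rw [← hσ ⟨s, hs⟩ υ, hυ ⟨s, hs⟩])
      (by rw [← hK₁]; exact υ.2) hυ1
      (by
        have h1 := congrArg K₁.subtype hid
        rw [map_mul, map_pow, map_zpow₀] at h1
        rw [← hqΩ]
        exact h1)
  refine ⟨β'', u, huK', hpow, hval, hfixu, fun t ht => hfixβ t t.2 ?_⟩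
  rw [← hσ t β, ht]

end Fermat.Agent.FF4.Approx
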