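/-
Programme II (S44), bridge leaf 'Approx' (helper6), part 5: the INSTANCE at `(ℚ̄, B)`.

`Kb = AlgebraicClosure ℚ`, `B : ValuationSubring Kb` over the prime `q`, `Ω = OmegaB B hB` the
completion, `ι = (datumKb B hB).ι`, `I = B.inertiaSubgroupIn ℚ` acting on `Ω` by `sigmaOmegaI`.
`K' : Subfield Kb` stable under `I`, on which `I` acts through a FINITE image.

* `finite_range_res_of_finiteDimensional` : the finite-image hypothesis holds when `K' / ℚ` is finite;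
* `exists_root_descent_decomp`, `exists_root_descent_inertia` :
  `FF4/Approx/Assembly.exists_root_descent` at this instance (any subgroup `H` of the
  decomposition group / the inertia group);
* `exists_root_of_geo_decomp`, `exists_root_of_geo` : the shape consumed by `K1Out` / `K3BetaOut`:
  from (GEO) `(ι c) ^ n * υ = β ^ p` in `Ω` with `υ` an inertia-fixed norm-one element of the
  completed constants `(K'.map ι).topologicalClosure`, get `β'' u : Kb` with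
  `β'' ^ p = c ^ n * u`, `u ∈ K'`, `B.valuation u = 1`, `u` fixed by `I`, and `β''` fixed by every
  `s ∈ I` whose extension to `Ω` fixes `β`.
-/
import Mathlib
import Fermat.Agent.FF4.Approx.Assembly
import Fermat.Agent.FF3.AbsB.Galois

set_option autoImplicit false

namespace Fermat.Agent.FF4.Approx

open Fermat.Agent.FF3.AbsB

local notation "Kb" => AlgebraicClosure ℚ

/-- The finite-image hypothesis holds when `K' / ℚ` is finite. -/
theorem finite_range_res_of_finiteDimensional (K' : Subfield Kb) [FiniteDimensional ℚ K']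
    (H : Subgroup (Kb ≃ₐ[ℚ] Kb)) :
    (Set.range fun s : H => fun y : K' => (s : Kb ≃ₐ[ℚ] Kb) (y : Kb)).Finite := by
  have hfin : Finite (K' →ₐ[ℚ] Kb) := inferInstance
  refine (Set.finite_range fun f : K' →ₐ[ℚ] Kb => (f : K' → Kb)).subset ?_
  rintro _ ⟨s, rfl⟩
  exact ⟨((s : Kb ≃ₐ[ℚ] Kb) : Kb →ₐ[ℚ] Kb).comp K'.subtype.toRatAlgHom, rfl⟩

variable (B : ValuationSubring Kb) {q : ℕ} [hq : Fact q.Prime] (hB : B.LiesOverPrime q)

theorem natCast_ne_zero_OmegaB {n : ℕ} (hn : n ≠ 0) : (n : OmegaB B hB) ≠ 0 := by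
  have : (n : OmegaB B hB) = (datumKb B hB).ι (n : Kb) := (map_natCast _ n).symm
  rw [this]
  exact (map_ne_zero _).mpr (Nat.cast_ne_zero.mpr hn)

/-- **`Approx` at the instance `(ℚ̄, B)`**, for a subgroup `H` of the decomposition group. -/
theorem exists_root_descent_decomp (H : Subgroup (Kb ≃ₐ[ℚ] Kb))
    (hH : H ≤ B.decompositionSubgroup ℚ) (K' : Subfield Kb)
    (hstab : ∀ s ∈ H, ∀ y ∈ K', s y ∈ K')
    (hfin : (Set.range fun s : H => fun y : K' => (s : Kb ≃ₐ[ℚ] Kb) (y : Kb)).Finite)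
    {p : ℕ} (hp : p ≠ 0) {ω β : OmegaB B hB} {c : Kb}
    (hω : ∀ (s : Kb ≃ₐ[ℚ] Kb) (hs : s ∈ H), sigmaOmega B hB s (hH hs) ω = ω)
    (hdense : ω ∈ closure ((datumKb B hB).ι '' (K' : Set Kb))) (hω1 : ‖ω‖ = 1)
    (hc : (datumKb B hB).ι c = ω * β ^ p) :
    ∃ u ∈ K', ∃ β'' : Kb, (∀ s ∈ H, s u = u) ∧
      ‖(datumKb B hB).ι u‖ = 1 ∧ β'' ^ p * u = c ∧
      ∀ (s : Kb ≃ₐ[ℚ] Kb) (hs : s ∈ H), sigmaOmega B hB s (hH hs) β = β → s β'' = β'' := by
  classical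
  set res : H → (K' → Kb) :=
    fun s => fun y : K' => (s : Kb ≃ₐ[ℚ] Kb) (y : Kb) with hres
  -- the finite index type
  let ι₀ : Type := ↥(Set.range res)
  have : Fintype ι₀ := hfin.fintype
  have : Nonempty ι₀ := ⟨⟨res 1, 1, rfl⟩⟩
  have hrep : ∀ i : ι₀, ∃ s : H, res s = i.1 := fun i => i.2
  choose rep hrepspec using hrep
  let τ : ι₀ → Kb →+* Kb := fun i => (((rep i : Kb ≃ₐ[ℚ] Kb) : Kb ≃+* Kb) : Kb →+* Kb)
  let T : ι₀ → OmegaB B hB →+* OmegaB B hB :=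
    fun i => sigmaOmega B hB (rep i : Kb ≃ₐ[ℚ] Kb) (hH (rep i).2)
  have hτapp : ∀ (i : ι₀) (y : Kb), τ i y = (rep i : Kb ≃ₐ[ℚ] Kb) y := fun _ _ => rfl
  have hτK' : ∀ (i : ι₀) (y : Kb) (hy : y ∈ K'), τ i y = i.1 ⟨y, hy⟩ := by
    intro i y hy
    rw [hτapp, ← hrepspec i]
  let S : Set (Kb →+* Kb) :=
    {f | ∃ s ∈ H, f = (((s : Kb ≃ₐ[ℚ] Kb) : Kb ≃+* Kb) : Kb →+* Kb)}
  have hperm : ∀ s ∈ S, ∃ π : ι₀ ≃ ι₀, ∀ y ∈ K', ∀ i, s (τ i y) = τ (π i) y := by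
    rintro _ ⟨s, hs, rfl⟩
    let fπ : ι₀ → ι₀ := fun i => ⟨fun y => s (i.1 y), ⟨⟨s, hs⟩ * rep i, by
      funext y
      show (s * (rep i : Kb ≃ₐ[ℚ] Kb)) (y : Kb) = s (i.1 y)
      rw [← hrepspec i]
      rfl⟩⟩
    have hinj : Function.Injective fπ := by
      intro i i' h
      apply Subtype.ext
      funext y
      have h1 := congrFun (congrArg Subtype.val h) y
      exact s.injective h1
    refine ⟨Equiv.ofBijective fπ (Finite.injective_iff_bijective.mp hinj), ?_⟩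
    intro y hy i
    rw [hτK' i y hy, hτK' _ y hy]
    rfl
  have hcard : (Fintype.card ι₀ : OmegaB B hB) ≠ 0 :=
    natCast_ne_zero_OmegaB B hB Fintype.card_ne_zero
  obtain ⟨u, huK', β'', hus, hu1, hpow, -, hfix⟩ :=
    exists_root_descent (j := (datumKb B hB).ι) (τ := τ) (T := T) K'
      (fun i y hy => by rw [hτapp]; exact hstab _ (rep i).2 y hy) S hperm
      (fun i a => norm_sigmaOmega (hH (rep i).2) a) (fun i x => sigmaOmega_ι (hH (rep i).2) x)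
      hcard (p := p) (Nat.cast_ne_zero.mpr hp) (fun i => hω _ (rep i).2) hdense hω1 hc
  refine ⟨u, huK', β'', fun s hs => hus _ ⟨s, hs, rfl⟩, hu1, hpow, fun s hs hβ => ?_⟩
  exact hfix _ ⟨s, hs, rfl⟩ (sigmaOmega B hB s (hH hs)) (fun a => norm_sigmaOmega (hH hs) a)
    (fun x => sigmaOmega_ι (hH hs) x) (hω s hs) hβ

/-- **From (GEO) to the hypotheses of `K3BetaOut`**, subgroup `H` of the decomposition group. -/
theorem exists_root_of_geo_decomp (H : Subgroup (Kb ≃ₐ[ℚ] Kb))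
    (hH : H ≤ B.decompositionSubgroup ℚ) (K' : Subfield Kb)
    (hstab : ∀ s ∈ H, ∀ y ∈ K', s y ∈ K')
    (hfin : (Set.range fun s : H => fun y : K' => (s : Kb ≃ₐ[ℚ] Kb) (y : Kb)).Finite)
    {p : ℕ} (hp : p ≠ 0) {c : Kb} (n : ℤ) {υ β : OmegaB B hB}
    (hυ : ∀ (s : Kb ≃ₐ[ℚ] Kb) (hs : s ∈ H), sigmaOmega B hB s (hH hs) υ = υ)
    (hυmem : υ ∈ (K'.map (datumKb B hB).ι).topologicalClosure) (hυ1 : ‖υ‖ = 1)
    (hid : (datumKb B hB).ι c ^ n * υ = β ^ p) :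
    ∃ β'' u : Kb, u ∈ K' ∧ β'' ^ p = c ^ n * u ∧ B.valuation u = 1 ∧
      (∀ t ∈ H, t u = u) ∧
      ∀ (s : Kb ≃ₐ[ℚ] Kb) (hs : s ∈ H), sigmaOmega B hB s (hH hs) β = β → s β'' = β'' := by
  have hυ0 : υ ≠ 0 := fun h => by rw [h, norm_zero] at hυ1; exact zero_ne_one hυ1
  have hinvmem : υ⁻¹ ∈ (K'.map (datumKb B hB).ι).topologicalClosure := inv_mem hυmem
  have hdense : υ⁻¹ ∈ closure ((datumKb B hB).ι '' (K' : Set Kb)) := by
    have h1 : ((K'.map (datumKb B hB).ι).topologicalClosure : Set (OmegaB B hB)) =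
        closure ((datumKb B hB).ι '' (K' : Set Kb)) := by
      show closure ((K'.map (datumKb B hB).ι : Subfield (OmegaB B hB)) : Set (OmegaB B hB)) = _
      rw [Subfield.coe_map]
    rw [← h1]
    exact hinvmem
  obtain ⟨u, huK', β'', hus, hu1, hpow, hfix⟩ :=
    exists_root_descent_decomp B hB H hH K' hstab hfin hp (ω := υ⁻¹) (β := β) (c := c ^ n)
      (fun s hs => by rw [map_inv₀, hυ s hs]) hdense (by rw [norm_inv, hυ1, inv_one])
      (by rw [map_zpow₀, ← hid, mul_comm _ υ, ← mul_assoc, inv_mul_cancel₀ hυ0, one_mul])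
  have hu0 : u ≠ 0 := fun h => by
    rw [h, map_zero, norm_zero] at hu1; exact zero_ne_one hu1
  refine ⟨β'', u⁻¹, inv_mem huK', ?_, ?_, fun t ht => by rw [map_inv₀, hus t ht], hfix⟩
  · rw [← hpow, mul_assoc, mul_inv_cancel₀ hu0, mul_one]
  · have h1 : ‖(datumKb B hB).ι u⁻¹‖ = 1 := by rw [map_inv₀, norm_inv, hu1, inv_one]
    rw [Datum.norm_ι] at h1
    exact (Datum.abv_eq_one_iff _).mp h1

/-- **`Approx` at the instance `(ℚ̄, B)`, inertia group.** -/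
theorem exists_root_descent_inertia (K' : Subfield Kb)
    (hstab : ∀ s ∈ B.inertiaSubgroupIn ℚ, ∀ y ∈ K', s y ∈ K')
    (hfin : (Set.range fun s : B.inertiaSubgroupIn ℚ =>
      fun y : K' => (s : Kb ≃ₐ[ℚ] Kb) (y : Kb)).Finite)
    {p : ℕ} (hp : p ≠ 0) {ω β : OmegaB B hB} {c : Kb}
    (hω : ∀ (s : Kb ≃ₐ[ℚ] Kb) (hs : s ∈ B.inertiaSubgroupIn ℚ),
      sigmaOmegaI (hB := hB) s hs ω = ω)
    (hdense : ω ∈ closure ((datumKb B hB).ι '' (K' : Set Kb))) (hω1 : ‖ω‖ = 1)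
    (hc : (datumKb B hB).ι c = ω * β ^ p) :
    ∃ u ∈ K', ∃ β'' : Kb, (∀ s ∈ B.inertiaSubgroupIn ℚ, s u = u) ∧
      ‖(datumKb B hB).ι u‖ = 1 ∧ β'' ^ p * u = c ∧
      ∀ (s : Kb ≃ₐ[ℚ] Kb) (hs : s ∈ B.inertiaSubgroupIn ℚ),
        sigmaOmegaI (hB := hB) s hs β = β → s β'' = β'' :=
  exists_root_descent_decomp B hB (B.inertiaSubgroupIn ℚ)
    (fun _ hs => mem_decomposition_of_mem_inertia B hs) K' hstab hfin hp hω hdense hω1 hc

/-- **From (GEO) to the hypotheses of `K3BetaOut`.**  `υ` an inertia-fixed norm-one element of the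
completed constants, `(ι c) ^ n * υ = β ^ p` in `Ω`. -/
theorem exists_root_of_geo (K' : Subfield Kb)
    (hstab : ∀ s ∈ B.inertiaSubgroupIn ℚ, ∀ y ∈ K', s y ∈ K')
    (hfin : (Set.range fun s : B.inertiaSubgroupIn ℚ =>
      fun y : K' => (s : Kb ≃ₐ[ℚ] Kb) (y : Kb)).Finite)
    {p : ℕ} (hp : p ≠ 0) {c : Kb} (n : ℤ) {υ β : OmegaB B hB}
    (hυ : ∀ (s : Kb ≃ₐ[ℚ] Kb) (hs : s ∈ B.inertiaSubgroupIn ℚ),
      sigmaOmegaI (hB := hB) s hs υ = υ)
    (hυmem : υ ∈ (K'.map (datumKb B hB).ι).topologicalClosure) (hυ1 : ‖υ‖ = 1)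
    (hid : (datumKb B hB).ι c ^ n * υ = β ^ p) :
    ∃ β'' u : Kb, u ∈ K' ∧ β'' ^ p = c ^ n * u ∧ B.valuation u = 1 ∧
      (∀ t ∈ B.inertiaSubgroupIn ℚ, t u = u) ∧
      ∀ (s : Kb ≃ₐ[ℚ] Kb) (hs : s ∈ B.inertiaSubgroupIn ℚ),
        sigmaOmegaI (hB := hB) s hs β = β → s β'' = β'' :=
  exists_root_of_geo_decomp B hB (B.inertiaSubgroupIn ℚ)
    (fun _ hs => mem_decomposition_of_mem_inertia B hs) K' hstab hfin hp n hυ hυmem hυ1 hid

end Fermat.Agent.FF4.Approx
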